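import Mathlib
import Fermat.Prelude.Def_FLTPrelim_Modularity

/-!
# Row LT, classical end (helper670): multiplying the `q`-expansion of a cusp form on `Γ₁(N)` by a
function of `n mod m`

`exists_twist_Gamma1`: for `f ∈ S_k(Γ₁(N))` and ANY `ψ : ZMod m → ℂ` there is
`g ∈ S_k(Γ₁(N m²))` with `a_n(g) = ψ(n) a_n(f)` for all `n`.

Special cases: twist by a Dirichlet character mod `m` (e.g. `χ₋₃`, `m = 3`, level `9N`), and
depletion at a prime `ℓ` (`ψ = 1_{ℓ ∤ n}`, level `N ℓ²`).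
-/

set_option autoImplicit false

open UpperHalfPlane ModularForm CongruenceSubgroup Matrix.SpecialLinearGroup ModularFormClass
open scoped MatrixGroups ModularForm Manifold

namespace Fermat.Agent.LT.H670

noncomputable section

/-- The unipotent matrix `[[1, x], [0, 1]]` in `GL₂(ℝ)`. -/
def unipR (x : ℝ) : GL (Fin 2) ℝ :=
  Matrix.GeneralLinearGroup.mkOfDetNeZero !![1, x; 0, 1] (by simp [Matrix.det_fin_two_of])

theorem unipR_det (x : ℝ) : (unipR x).det.val = 1 := by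
  simp [unipR, Matrix.GeneralLinearGroup.mkOfDetNeZero, Matrix.det_fin_two_of]

theorem coe_unipR_smul (x : ℝ) (τ : ℍ) : ((unipR x • τ : ℍ) : ℂ) = (τ : ℂ) + x := by
  rw [UpperHalfPlane.coe_smul_of_det_pos (by rw [unipR_det]; exact one_pos)]
  simp [UpperHalfPlane.num, UpperHalfPlane.denom, unipR, Matrix.GeneralLinearGroup.mkOfDetNeZero]

theorem slash_unipR_apply (k : ℤ) (x : ℝ) (f : ℍ → ℂ) (τ : ℍ) :
    (f ∣[k] unipR x) τ = f (unipR x • τ) := by
  rw [ModularForm.slash_apply]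
  have hσ : UpperHalfPlane.σ (unipR x) = ContinuousAlgEquiv.refl ℝ ℂ := by
    rw [UpperHalfPlane.σ, if_pos (by rw [unipR_det]; exact one_pos)]
  have hden : UpperHalfPlane.denom (unipR x) τ = 1 := by
    simp [UpperHalfPlane.denom, unipR, Matrix.GeneralLinearGroup.mkOfDetNeZero]
  rw [hσ, hden, unipR_det]
  simp

/-- Restriction of a cusp form to a smaller subgroup. -/
def restrictCusp {Γ Γ' : Subgroup (GL (Fin 2) ℝ)} {k : ℤ} (h : Γ ≤ Γ') (f : CuspForm Γ' k) :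
    CuspForm Γ k where
  toFun := f
  slash_action_eq' γ hγ := f.slash_action_eq' γ (h hγ)
  holo' := f.holo'
  zero_at_cusps' hc := f.zero_at_cusps' (hc.mono h)

@[simp] theorem coe_restrictCusp {Γ Γ' : Subgroup (GL (Fin 2) ℝ)} {k : ℤ} (h : Γ ≤ Γ')
    (f : CuspForm Γ' k) : ⇑(restrictCusp h f) = ⇑f := rfl

theorem sl2_det_eq (g : SL(2, ℤ)) : g 0 0 * g 1 1 - g 0 1 * g 1 0 = 1 := by
  have := g.det_coe
  rw [Matrix.det_fin_two] at this
  exact this

/-- An element of `SL(2, ℤ)` with prescribed entries. -/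
theorem exists_sl2_of_entries (a b c d : ℤ) (h : a * d - b * c = 1) :
    ∃ g : SL(2, ℤ), g 0 0 = a ∧ g 0 1 = b ∧ g 1 0 = c ∧ g 1 1 = d :=
  ⟨⟨!![a, b; c, d], by rw [Matrix.det_fin_two_of]; exact h⟩, rfl, rfl, rfl, rfl⟩

theorem mapGL_real_apply (g : SL(2, ℤ)) (i j : Fin 2) :
    ((mapGL ℝ g : GL (Fin 2) ℝ) : Matrix (Fin 2) (Fin 2) ℝ) i j = ((g i j : ℤ) : ℝ) := by
  simp

/-- `[[1, j/m],[0,1]] g = g' [[1, j/m],[0,1]]` with `g' ∈ Γ₁(N)` for `g ∈ Γ₁(N m²)`. -/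
theorem unip_mul_Gamma1 (N m : ℕ) (hm : m ≠ 0) (j : ℤ) (g : SL(2, ℤ))
    (hg : g ∈ Gamma1 (N * m ^ 2)) :
    ∃ g' : SL(2, ℤ), g' ∈ Gamma1 N ∧
      unipR ((j : ℝ) / m) * mapGL ℝ g = mapGL ℝ g' * unipR ((j : ℝ) / m) := by
  obtain ⟨h00, h11, h10⟩ := (Gamma1_mem (N * m ^ 2) g).mp hg
  have hdet := sl2_det_eq g
  obtain ⟨a₀, ha⟩ : ((N * m ^ 2 : ℕ) : ℤ) ∣ g 0 0 - 1 := by
    have : ((g 0 0 - 1 : ℤ) : ZMod (N * m ^ 2)) = 0 := by push_cast; rw [h00]; ring
    exact (ZMod.intCast_zmod_eq_zero_iff_dvd _ _).mp this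
  obtain ⟨d₀, hd⟩ : ((N * m ^ 2 : ℕ) : ℤ) ∣ g 1 1 - 1 := by
    have : ((g 1 1 - 1 : ℤ) : ZMod (N * m ^ 2)) = 0 := by push_cast; rw [h11]; ring
    exact (ZMod.intCast_zmod_eq_zero_iff_dvd _ _).mp this
  obtain ⟨c₀, hc⟩ : ((N * m ^ 2 : ℕ) : ℤ) ∣ g 1 0 :=
    (ZMod.intCast_zmod_eq_zero_iff_dvd _ _).mp h10
  push_cast at ha hd hc
  obtain ⟨g', e00, e01, e10, e11⟩ := exists_sl2_of_entries
    (g 0 0 + j * N * m * c₀) (g 0 1 + j * N * m * (d₀ - a₀) - j ^ 2 * N * c₀)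
    (g 1 0) (g 1 1 - j * N * m * c₀)
    (by linear_combination hdet + (j * N * m * c₀) * (hd - ha)
      + (-(j * N * m * (d₀ - a₀)) + j ^ 2 * N * c₀) * hc)
  refine ⟨g', (Gamma1_mem N g').mpr ⟨?_, ?_, ?_⟩, ?_⟩
  · have : (g' 0 0 : ℤ) = 1 + N * (m ^ 2 * a₀ + j * m * c₀) := by
      rw [e00]; linear_combination ha
    rw [this]
    push_cast
    simp
  · have : (g' 1 1 : ℤ) = 1 + N * (m ^ 2 * d₀ - j * m * c₀) := by
      rw [e11]; linear_combination hd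
    rw [this]
    push_cast
    simp
  · have : (g' 1 0 : ℤ) = N * (m ^ 2 * c₀) := by
      rw [e10]; linear_combination hc
    rw [this]
    push_cast
    simp
  · have hmR : (m : ℝ) ≠ 0 := Nat.cast_ne_zero.mpr hm
    have haR := congrArg (Int.cast : ℤ → ℝ) ha
    have hdR := congrArg (Int.cast : ℤ → ℝ) hd
    have hcR := congrArg (Int.cast : ℤ → ℝ) hc
    have f00 := congrArg (Int.cast : ℤ → ℝ) e00
    have f01 := congrArg (Int.cast : ℤ → ℝ) e01
    have f10 := congrArg (Int.cast : ℤ → ℝ) e10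
    have f11 := congrArg (Int.cast : ℤ → ℝ) e11
    push_cast at haR hdR hcR f00 f01 f10 f11
    have e1 : ((g 1 1 : ℤ) : ℝ) = 1 + N * m ^ 2 * d₀ := by linear_combination hdR
    have e0 : ((g 0 0 : ℤ) : ℝ) = 1 + N * m ^ 2 * a₀ := by linear_combination haR
    apply Units.ext
    ext i j'
    rw [Units.val_mul, Units.val_mul, Matrix.mul_apply, Matrix.mul_apply, Fin.sum_univ_two,
      Fin.sum_univ_two]
    simp only [mapGL_real_apply]
    fin_cases i <;> fin_cases j' <;>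
      simp [unipR, Matrix.GeneralLinearGroup.mkOfDetNeZero, f00, f01, f10, f11] <;>
      first
        | ring1
        | (rw [hcR]; field_simp; done)
        | (rw [e1, e0]; field_simp; ring1)
        | (rw [hcR]; field_simp; ring1)

open ConjAct Pointwise in
theorem Gamma1_le_conj_unip (N m : ℕ) (hm : m ≠ 0) (j : ℤ) :
    (Gamma1 (N * m ^ 2) : Subgroup (GL (Fin 2) ℝ)) ≤
      toConjAct (unipR ((j : ℝ) / m))⁻¹ • (Gamma1 N : Subgroup (GL (Fin 2) ℝ)) := by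
  rintro γ ⟨g, hg, rfl⟩
  rw [Subgroup.mem_pointwise_smul_iff_inv_smul_mem, ← map_inv, inv_inv, ConjAct.smul_def,
    ConjAct.ofConjAct_toConjAct]
  obtain ⟨g', hg'1, hg'⟩ := unip_mul_Gamma1 N m hm j g hg
  rw [hg', mul_inv_cancel_right]
  exact ⟨g', hg'1, rfl⟩

theorem one_mem_strictPeriods_Gamma1_map (N : ℕ) :
    (1 : ℝ) ∈ (Subgroup.map (mapGL ℝ) (Gamma1 N)).strictPeriods := by
  have h := strictPeriods_Gamma1 N
  rw [h]
  exact AddSubgroup.mem_zmultiples (1 : ℝ)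

/-- `τ ↦ f (τ + j / m)` as a cusp form on `Γ₁(N m²)`. -/
def shiftForm (N m : ℕ) (hm : m ≠ 0) (k : ℤ) (j : ℤ) (f : CuspForm (Gamma1 N) k) :
    CuspForm (Gamma1 (N * m ^ 2)) k :=
  restrictCusp (Gamma1_le_conj_unip N m hm j) (CuspForm.translate f (unipR ((j : ℝ) / m)))

theorem shiftForm_apply (N m : ℕ) (hm : m ≠ 0) (k : ℤ) (j : ℤ) (f : CuspForm (Gamma1 N) k)
    (τ : ℍ) : shiftForm N m hm k j f τ = f (unipR ((j : ℝ) / m) • τ) := by
  change ((⇑f) ∣[k] unipR ((j : ℝ) / m)) τ = _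
  exact slash_unipR_apply k _ _ τ

theorem qParam_unipR (x : ℝ) (τ : ℍ) :
    Function.Periodic.qParam 1 ((unipR x • τ : ℍ) : ℂ) =
      Function.Periodic.qParam 1 (τ : ℂ) * Complex.exp (2 * Real.pi * Complex.I * x) := by
  rw [coe_unipR_smul, Function.Periodic.qParam, Function.Periodic.qParam, ← Complex.exp_add]
  congr 1
  push_cast
  ring

theorem hasSum_shiftForm (N m : ℕ) (hm : m ≠ 0) (k : ℤ) (j : ℤ) (f : CuspForm (Gamma1 N) k)
    (τ : ℍ) :
    HasSum (fun n : ℕ =>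
        (qCoeff f n * Complex.exp (2 * Real.pi * Complex.I * ((j : ℝ) / m : ℝ)) ^ n) •
          Function.Periodic.qParam 1 (τ : ℂ) ^ n)
      (shiftForm N m hm k j f τ) := by
  have : Fact (IsCusp OnePoint.infty (Subgroup.map (mapGL ℝ) (Gamma1 N))) :=
    ⟨Subgroup.isCusp_of_mem_strictPeriods one_pos (one_mem_strictPeriods_Gamma1_map N)⟩
  have h1 := ModularForm.hasSum_qExpansion (f := f) one_pos
    (one_mem_strictPeriods_Gamma1_map N) (unipR ((j : ℝ) / m) • τ)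
  rw [qParam_unipR, ← shiftForm_apply N m hm k j f τ] at h1
  refine h1.congr_fun ?_ 
  intro n
  simp only [qCoeff, smul_eq_mul, mul_pow]
  ring

theorem cuspForm_sum_apply {Γ : Subgroup (GL (Fin 2) ℝ)} {k : ℤ} {ι : Type*} (s : Finset ι)
    (F : ι → CuspForm Γ k) (τ : ℍ) : (∑ j ∈ s, F j) τ = ∑ j ∈ s, F j τ := by
  classical
  induction s using Finset.induction_on with
  | empty => simp
  | insert a s ha ih => rw [Finset.sum_insert ha, Finset.sum_insert ha, ← ih]; rfl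

theorem exp_shift_pow (m : ℕ) [NeZero m] (j : ZMod m) (n : ℕ) :
    Complex.exp (2 * Real.pi * Complex.I * (((j.val : ℤ) : ℝ) / m : ℝ)) ^ n =
      ZMod.stdAddChar (j * (n : ZMod m)) := by
  have h : j * (n : ZMod m) = (((j.val * n : ℕ) : ℤ) : ZMod m) := by
    push_cast
    rw [ZMod.natCast_zmod_val]
  rw [h, ZMod.stdAddChar_coe, ← Complex.exp_nat_mul]
  congr 1
  push_cast
  ring

/-- **TWIST**: for `f ∈ S_k(Γ₁(N))` and any function `ψ` on `ℤ/m` there is a cusp form on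
`Γ₁(N m²)` whose `n`-th `q`-coefficient is `ψ(n) a_n(f)`. -/
theorem exists_twist_Gamma1 (N m : ℕ) [NeZero m] (k : ℤ) (f : CuspForm (Gamma1 N) k)
    (ψ : ZMod m → ℂ) :
    ∃ g : CuspForm (Gamma1 (N * m ^ 2)) k,
      ∀ n : ℕ, qCoeff g n = ψ (n : ZMod m) * qCoeff f n := by
  have hm : m ≠ 0 := NeZero.ne m
  set c : ZMod m → ℂ := fun j => (m : ℂ)⁻¹ * (ZMod.dft ψ) j with hc
  refine ⟨∑ j : ZMod m, c j • shiftForm N m hm k ((j.val : ℕ) : ℤ) f, fun n => ?_⟩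
  have key : ∀ τ : ℍ, HasSum
      (fun n : ℕ => (ψ (n : ZMod m) * qCoeff f n) • Function.Periodic.qParam 1 (τ : ℂ) ^ n)
      ((∑ j : ZMod m, c j • shiftForm N m hm k ((j.val : ℕ) : ℤ) f) τ) := by
    intro τ
    rw [cuspForm_sum_apply]
    have h1 : ∀ j ∈ (Finset.univ : Finset (ZMod m)), HasSum
        (fun n : ℕ => c j * ((qCoeff f n *
          Complex.exp (2 * Real.pi * Complex.I * ((((j.val : ℕ) : ℤ) : ℝ) / m : ℝ)) ^ n) •
            Function.Periodic.qParam 1 (τ : ℂ) ^ n))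
        ((c j • shiftForm N m hm k ((j.val : ℕ) : ℤ) f) τ) := by
      intro j _
      exact (hasSum_shiftForm N m hm k ((j.val : ℕ) : ℤ) f τ).mul_left (c j)
    have h2 := hasSum_sum h1
    refine h2.congr_fun ?_
    intro n
    have hψ : ψ (n : ZMod m) = (ZMod.dft.symm (ZMod.dft ψ)) (n : ZMod m) := by
      rw [LinearEquiv.symm_apply_apply]
    rw [hψ, ZMod.invDFT_apply, Finset.smul_sum, Finset.sum_mul]
    simp only [smul_eq_mul]
    rw [Finset.sum_mul]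
    refine Finset.sum_congr rfl fun j _ => ?_
    rw [exp_shift_pow m j n]
    simp only [hc]
    ring
  exact (ModularFormClass.qExpansion_coeff_unique one_pos
    (one_mem_strictPeriods_Gamma1_map (N * m ^ 2)) key n).symm

end

end Fermat.Agent.LT.H670
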