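import Fermat.Agent.LT.H670.WallTop
import Fermat.Agent.LT.H670.Twist

/-!
# Row LT -- WALL-TOP, leaf DEPL (helper670): PROVED

`deplWC : DeplWC`: an almost-everywhere wall output gives `LTB.WallOut`, by depletion at the
exceptional primes (`exists_twist_Gamma1`), the character being induced to the new level.
-/

set_option autoImplicit false

open AutomorphicForm FLT.ExplicitLift EisensteinWeightOne
open WeierstrassCurve
open CongruenceSubgroup IsDedekindDomain NumberField ModularFormClass
open scoped MatrixGroups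

noncomputable section

namespace Fermat.Agent.LT.H670

local notation "Γℚ" => (AlgebraicClosure ℚ ≃ₐ[ℚ] AlgebraicClosure ℚ)

/-- the induced character at a prime not dividing the new level -/
theorem changeLevel_natCast {N N' : ℕ} [NeZero N'] (h : N ∣ N') (ε : DirichletCharacter ℂ N)
    {p : ℕ} (hp : p.Coprime N') :
    (DirichletCharacter.changeLevel h ε) ((p : ℕ) : ZMod N') = ε ((p : ℕ) : ZMod N) := by
  have hu : IsUnit ((p : ℕ) : ZMod N') := (ZMod.isUnit_iff_coprime p N').mpr hp
  obtain ⟨u, hu'⟩ := hu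
  rw [← hu', DirichletCharacter.changeLevel_eq_cast_of_dvd ε h u, hu', ZMod.cast_natCast h]

/-- **DEPL**, proved. -/
theorem deplWC : DeplWC := by
  classical
  intro ρ Ψ hW
  obtain ⟨N, hN, ε, f, ι, S, hf1, hrel, hmatch⟩ := hW
  set m : ℕ := ∏ p ∈ S.filter (fun p => p ≠ 0), p with hm
  have hm0 : m ≠ 0 := by
    rw [hm]
    exact Finset.prod_ne_zero_iff.mpr fun p hp => (Finset.mem_filter.mp hp).2
  have hmI : NeZero m := ⟨hm0⟩
  have hMI : NeZero (N * m ^ 2) := ⟨mul_ne_zero (NeZero.ne N) (pow_ne_zero 2 hm0)⟩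
  obtain ⟨g, hg⟩ := exists_twist_Gamma1 N m 1 f (fun x => if IsUnit x then 1 else 0)
  have hdvd : N ∣ N * m ^ 2 := Dvd.intro _ rfl
  -- the coefficients of `g`
  have hgc : ∀ n : ℕ, n.Coprime m → qCoeff g n = qCoeff f n := by
    intro n hn
    rw [hg n, if_pos ((ZMod.isUnit_iff_coprime n m).mpr hn), one_mul]
  have hgn : ∀ n : ℕ, ¬ n.Coprime m → qCoeff g n = 0 := by
    intro n hn
    rw [hg n, if_neg (fun hu => hn ((ZMod.isUnit_iff_coprime n m).mp hu)), zero_mul]
  refine ⟨N * m ^ 2, hMI, DirichletCharacter.changeLevel hdvd ε, g, ι, ?_, ?_, ?_⟩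
  · rw [hgc 1 (Nat.coprime_one_left m), hf1]
  · intro p hp hpN' n
    have hpN : ¬ p ∣ N := fun h => hpN' (Dvd.dvd.mul_right h _)
    have hpm : ¬ p ∣ m := fun h => hpN' (Dvd.dvd.mul_left (dvd_pow h two_ne_zero) N)
    have hpc : p.Coprime m := (Nat.Prime.coprime_iff_not_dvd hp).mpr hpm
    have hpc' : p.Coprime (N * m ^ 2) := (Nat.Prime.coprime_iff_not_dvd hp).mpr hpN'
    rw [changeLevel_natCast hdvd ε hpc', hgc p hpc]
    have key := hrel p hp hpN n
    by_cases hn : n.Coprime m
    · rw [hgc (p * n) (Nat.Coprime.mul_left hpc hn), hgc n hn]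
      by_cases hd : p ∣ n
      · rw [if_pos hd] at key ⊢
        rw [hgc (n / p) (Nat.Coprime.coprime_dvd_left (Nat.div_dvd_of_dvd hd) hn)]
        exact key
      · rw [if_neg hd] at key ⊢
        exact key
    · rw [hgn (p * n) (fun hc => hn (Nat.Coprime.coprime_mul_left hc)), hgn n hn]
      by_cases hd : p ∣ n
      · have hn3 : ¬ (n / p).Coprime m := by
          intro hc
          apply hn
          have := Nat.Coprime.mul_left hpc hc
          rwa [Nat.mul_div_cancel' hd] at this
        rw [if_pos hd, hgn (n / p) hn3]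
        simp
      · rw [if_neg hd]
        simp
  · intro p hp hp3N' A hA σ hσ hdet h4
    have hpm : ¬ p ∣ m := fun hd =>
      hp3N' (Dvd.dvd.mul_left (Dvd.dvd.mul_left (dvd_pow hd two_ne_zero) N) 3)
    have hpS : p ∉ S := fun hmem =>
      hpm (Finset.dvd_prod_of_mem _ (Finset.mem_filter.mpr ⟨hmem, hp.ne_zero⟩))
    rw [hgc p ((Nat.Prime.coprime_iff_not_dvd hp).mpr hpm)]
    exact hmatch p hp hpS A hA σ hσ hdet h4

/-- **WALL-TOP** without the depletion leaf. -/
theorem wall_of_leaves' (notion : CuspidalityNotion ℂ)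
    (hT : TowerC) (hSeed : SeedC notion) (h3 : Desc3C notion) (h2 : Desc2C notion)
    (hSplit : SplitC) (hPar : ParC notion) (hDict : DictC notion) : LTB.WallC :=
  wall_of_leaves notion hT hSeed h3 h2 hSplit hPar hDict deplWC

end Fermat.Agent.LT.H670

end
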