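import Fermat.Agent.LT.H17.Board

/-!
# Row LT -- WALL-TOP (helper670): abstract-notion skeleton of `LTB.WallC`

`notion : CuspidalityNotion ℂ` is ABSTRACT here (its definition is block A0, helper556).  The
eigensystems are complex valued (`HeckeEigensystem K ℂ`, unitary normalisation: `a_v` = trace and
`b_v` = determinant of the Satake parameter); `ι : ℤ√(-2) →+* ℂ` is any embedding.

Tower: `F = ℚ(√-3)` = fixed field of `ker (det ∘ ρ)`, `E` = fixed field of `ρ⁻¹(Q8)`,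
`Q8 = {g | det g = 1 ∧ g ^ 4 = 1}`; `E/ℚ` is Galois with group `S₃`, `E/F` cyclic cubic.

Leaves (frozen Props; each is a TRUE statement for the honest notion = cuspidal automorphic
representations of `GL₂(𝔸_K)` whose archimedean components are of Artin type):

| leaf | Prop | content |
|---|---|---|
| TOWER | `TowerC` | the tower exists (infinite Galois theory, elementary) |
| A2    | `SeedC notion` | the dihedral form over `E` attached to `ρ|G_E` (image `Q8`) is cuspidal |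
| A3c   | `Desc3C notion` | cubic cyclic descent `E/F`, the descent chosen `Gal(F/ℚ)`-invariant with trivial central character |
| A3q   | `Desc2C notion` | quadratic descent `F/ℚ` |
| SPLIT | `SplitC` | elementary: at a prime `p` whose Frobenius lies in `Q8` the two base-change relations and the seed give `a_p(π_ℚ) = ι tr Ψ(ρ Frob_p)` |
| PAR   | `ParC notion` | the central character of the descended form is `χ₋₃` (Rankin--Selberg mass count) |
| A6    | `DictC notion` | dictionary: cuspidal over `ℚ`, central character `χ₋₃` ⇒ classical weight-one form with the Hecke relations of S48 |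
| DEPL  | `DeplWC` | classical depletion at finitely many primes (from `LT/H670/Twist.lean`) |

`wall_of_leaves : TowerC → SeedC n → Desc3C n → Desc2C n → SplitC → ParC n → DictC n → DeplWC →
  LTB.WallC` is PROVED below.
-/

set_option autoImplicit false

open AutomorphicForm FLT.ExplicitLift EisensteinWeightOne
open WeierstrassCurve
open CongruenceSubgroup IsDedekindDomain NumberField
open scoped MatrixGroups

noncomputable section

namespace Fermat.Agent.LT.H670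

local notation "Γℚ" => (AlgebraicClosure ℚ ≃ₐ[ℚ] AlgebraicClosure ℚ)

/-- The tower `ℚ ⊂ F ⊂ E ⊂ ℚ̄` cut out by `ρ`: `F` is the fixed field of `ker (det ∘ ρ)` and `E`
the fixed field of `ρ⁻¹(Q8)`. -/
structure TowerData (ρ : Γℚ →* GL (Fin 2) (ZMod 3)) where
  /-- the quadratic field -/
  F : Type
  /-- the sextic field -/
  E : Type
  [fieldF : Field F]
  [fieldE : Field E]
  [nfF : NumberField F]
  [nfE : NumberField E]
  [algFE : Algebra F E]
  /-- embedding of `F` -/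
  jF : F →+* AlgebraicClosure ℚ
  /-- embedding of `E` -/
  jE : E →+* AlgebraicClosure ℚ
  compat : ∀ x : F, jE (algebraMap F E x) = jF x
  rangeF : ∀ x : AlgebraicClosure ℚ, x ∈ jF.range ↔
    ∀ σ : Γℚ, Matrix.GeneralLinearGroup.det (ρ σ) = 1 → σ x = x
  rangeE : ∀ x : AlgebraicClosure ℚ, x ∈ jE.range ↔
    ∀ σ : Γℚ, Matrix.GeneralLinearGroup.det (ρ σ) = 1 → (ρ σ) ^ 4 = 1 → σ x = x

attribute [instance] TowerData.fieldF TowerData.fieldE TowerData.nfF TowerData.nfE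
  TowerData.algFE

/-- The valuation subring `A` of `ℚ̄` lies over the finite place `𝔓` of `K` (embedded by `j`). -/
def UnderPlace {K : Type} [Field K] [NumberField K] (j : K →+* AlgebraicClosure ℚ)
    (𝔓 : HeightOneSpectrum (𝓞 K)) (A : ValuationSubring (AlgebraicClosure ℚ)) : Prop :=
  ∀ x : 𝓞 K, x ∈ 𝔓.asIdeal ↔ j (algebraMap (𝓞 K) K x) ∈ A.nonunits

/-- `Φ` is the seed: at almost every finite place `𝔓` of `E`, `b_𝔓 = 1` and `a_𝔓` is the trace
of `Ψ (ρ σ)` for every Frobenius element `σ ∈ G_E` at `𝔓`. -/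
def IsSeed (ρ : Γℚ →* GL (Fin 2) (ZMod 3)) (Ψ : GL (Fin 2) (ZMod 3) →* GL (Fin 2) (ℤ√(-2)))
    (ι : ℤ√(-2) →+* ℂ) (T : TowerData ρ) (Φ : HeckeEigensystem T.E ℂ) : Prop :=
  ∃ S : Finset (HeightOneSpectrum (𝓞 T.E)), ∀ 𝔓 ∉ S,
    Φ.b 𝔓 = 1 ∧
    ∀ A : ValuationSubring (AlgebraicClosure ℚ), UnderPlace T.jE 𝔓 A →
      ∀ σ : Γℚ, Matrix.GeneralLinearGroup.det (ρ σ) = 1 → (ρ σ) ^ 4 = 1 →
        A.IsFrobeniusAt σ (Nat.card (𝓞 T.E ⧸ 𝔓.asIdeal)) →
        Φ.a 𝔓 = ι (((Ψ (ρ σ) : GL (Fin 2) (ℤ√(-2))) : Matrix (Fin 2) (Fin 2) (ℤ√(-2))).trace)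

/-- The eigensystem `π` over `ℚ` matches `Ψ ∘ ρ` at almost all primes whose Frobenius is in
`Q8`. -/
def MatchesOnQ8 (ρ : Γℚ →* GL (Fin 2) (ZMod 3)) (Ψ : GL (Fin 2) (ZMod 3) →* GL (Fin 2) (ℤ√(-2)))
    (ι : ℤ√(-2) →+* ℂ) (π : HeckeEigensystem ℚ ℂ) : Prop :=
  ∃ S : Finset ℕ, ∀ p : Nat.Primes, (p : ℕ) ∉ S →
    ∀ A : ValuationSubring (AlgebraicClosure ℚ), A.LiesOverPrime (p : ℕ) →
      ∀ σ : Γℚ, A.IsFrobeniusAt σ (p : ℕ) →
        Matrix.GeneralLinearGroup.det (ρ σ) = 1 → (ρ σ) ^ 4 = 1 →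
        π.a (ratPrime p) =
          ι (((Ψ (ρ σ) : GL (Fin 2) (ℤ√(-2))) : Matrix (Fin 2) (Fin 2) (ℤ√(-2))).trace)

/-- The central character of `π` is `χ₋₃` (at almost all primes). -/
def HasCentralCharChi (π : HeckeEigensystem ℚ ℂ) : Prop :=
  ∃ S : Finset ℕ, ∀ p : Nat.Primes, (p : ℕ) ∉ S →
    π.b (ratPrime p) = ((chiNegThree (p : ℕ) : ℤ) : ℂ)

/-- Output of the dictionary: a classical weight-one form with the Hecke relations of S48 whose
`a_p` are those of `π` at almost all primes. -/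
def ClassicalFor (π : HeckeEigensystem ℚ ℂ) : Prop :=
  ∃ (N : ℕ) (_ : NeZero N) (ε : DirichletCharacter ℂ N) (f : CuspForm (Gamma1 N) 1),
    ModularFormClass.qCoeff f 1 = 1 ∧
    (∀ p : ℕ, p.Prime → ¬ p ∣ N → ∀ n : ℕ,
        ModularFormClass.qCoeff f (p * n) +
            ε (p : ZMod N) * (if p ∣ n then ModularFormClass.qCoeff f (n / p) else 0) =
          ModularFormClass.qCoeff f p * ModularFormClass.qCoeff f n) ∧
    ∃ S : Finset ℕ, ∀ p : Nat.Primes, (p : ℕ) ∉ S →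
      ModularFormClass.qCoeff f (p : ℕ) = π.a (ratPrime p)

/-- `WallOut` with the trace identity only outside a finite set of primes. -/
def WallOutAE (ρ : Γℚ →* GL (Fin 2) (ZMod 3))
    (Ψ : GL (Fin 2) (ZMod 3) →* GL (Fin 2) (ℤ√(-2))) : Prop :=
  ∃ (N : ℕ) (_ : NeZero N) (ε : DirichletCharacter ℂ N) (f : CuspForm (Gamma1 N) 1)
    (ι : ℤ√(-2) →+* ℂ) (S : Finset ℕ),
    ModularFormClass.qCoeff f 1 = 1 ∧
    (∀ p : ℕ, p.Prime → ¬ p ∣ N → ∀ n : ℕ,
        ModularFormClass.qCoeff f (p * n) +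
            ε (p : ZMod N) * (if p ∣ n then ModularFormClass.qCoeff f (n / p) else 0) =
          ModularFormClass.qCoeff f p * ModularFormClass.qCoeff f n) ∧
    ∀ p : ℕ, p.Prime → p ∉ S →
      ∀ A : ValuationSubring (AlgebraicClosure ℚ), A.LiesOverPrime p →
        ∀ σ : Γℚ, A.IsFrobeniusAt σ p →
          Matrix.GeneralLinearGroup.det (ρ σ) = 1 → (ρ σ) ^ 4 = 1 →
          ModularFormClass.qCoeff f p =
            ι (((Ψ (ρ σ) : GL (Fin 2) (ℤ√(-2))) : Matrix (Fin 2) (Fin 2) (ℤ√(-2))).trace)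

/-! ## The leaves -/

/-- **TOWER** (elementary). -/
def TowerC : Prop :=
  ∀ (ρ : Γℚ →* GL (Fin 2) (ZMod 3)) (Ψ : GL (Fin 2) (ZMod 3) →* GL (Fin 2) (ℤ√(-2))),
    LTB.Hyp ρ Ψ → Nonempty (TowerData ρ)

/-- **A2 = SEED**: the dihedral form over `E`. -/
def SeedC (notion : CuspidalityNotion ℂ) : Prop :=
  ∀ (ρ : Γℚ →* GL (Fin 2) (ZMod 3)) (Ψ : GL (Fin 2) (ZMod 3) →* GL (Fin 2) (ℤ√(-2))),
    LTB.Hyp ρ Ψ → ∀ (ι : ℤ√(-2) →+* ℂ) (T : TowerData ρ),
      ∃ Φ : HeckeEigensystem T.E ℂ, notion.IsCusp T.E Φ ∧ IsSeed ρ Ψ ι T Φ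

/-- **A3c**: cubic cyclic descent `E/F`; the descent is chosen invariant under `Gal(F/ℚ)` and
with trivial central character (exactly one of the three twists by `Gal(E/F)^∨` is). -/
def Desc3C (notion : CuspidalityNotion ℂ) : Prop :=
  ∀ (ρ : Γℚ →* GL (Fin 2) (ZMod 3)) (Ψ : GL (Fin 2) (ZMod 3) →* GL (Fin 2) (ℤ√(-2))),
    LTB.Hyp ρ Ψ → ∀ (ι : ℤ√(-2) →+* ℂ) (T : TowerData ρ) (Φ : HeckeEigensystem T.E ℂ),
      notion.IsCusp T.E Φ → IsSeed ρ Ψ ι T Φ →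
      ∃ πF : HeckeEigensystem T.F ℂ, notion.IsCusp T.F πF ∧ IsBaseChangeOf πF Φ ∧
        πF.IsConstantOnFibers ℚ ∧
        ∃ S : Finset (HeightOneSpectrum (𝓞 T.F)), ∀ 𝔭 ∉ S, πF.b 𝔭 = 1

/-- **A3q**: quadratic descent `F/ℚ`. -/
def Desc2C (notion : CuspidalityNotion ℂ) : Prop :=
  ∀ (ρ : Γℚ →* GL (Fin 2) (ZMod 3)) (Ψ : GL (Fin 2) (ZMod 3) →* GL (Fin 2) (ℤ√(-2))),
    LTB.Hyp ρ Ψ → ∀ (T : TowerData ρ) (πF : HeckeEigensystem T.F ℂ),
      notion.IsCusp T.F πF → πF.IsConstantOnFibers ℚ →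
      ∃ π : HeckeEigensystem ℚ ℂ, notion.IsCusp ℚ π ∧ IsBaseChangeOf π πF

/-- **SPLIT** (elementary algebraic number theory, no automorphic input): if the Frobenius at
`p` lies in `Q8` then `p` splits completely in `E`, the inertia degrees are `1`, and the two
base-change relations and the seed give the value of `a_p`. -/
def SplitC : Prop :=
  ∀ (ρ : Γℚ →* GL (Fin 2) (ZMod 3)) (Ψ : GL (Fin 2) (ZMod 3) →* GL (Fin 2) (ℤ√(-2))),
    LTB.Hyp ρ Ψ → ∀ (ι : ℤ√(-2) →+* ℂ) (T : TowerData ρ) (Φ : HeckeEigensystem T.E ℂ)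
      (πF : HeckeEigensystem T.F ℂ) (π : HeckeEigensystem ℚ ℂ),
      IsSeed ρ Ψ ι T Φ → IsBaseChangeOf πF Φ → IsBaseChangeOf π πF → MatchesOnQ8 ρ Ψ ι π

/-- **PAR**: the central character of the descended form is `χ₋₃`, not `1`
(Rankin--Selberg: the mean of `|a_p|²` is `1`; the even alternative gives mean `2`). -/
def ParC (notion : CuspidalityNotion ℂ) : Prop :=
  ∀ (ρ : Γℚ →* GL (Fin 2) (ZMod 3)) (Ψ : GL (Fin 2) (ZMod 3) →* GL (Fin 2) (ℤ√(-2))),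
    LTB.Hyp ρ Ψ → ∀ (ι : ℤ√(-2) →+* ℂ) (T : TowerData ρ) (Φ : HeckeEigensystem T.E ℂ)
      (πF : HeckeEigensystem T.F ℂ) (π : HeckeEigensystem ℚ ℂ),
      notion.IsCusp T.E Φ → IsSeed ρ Ψ ι T Φ →
      notion.IsCusp T.F πF → IsBaseChangeOf πF Φ →
      (∃ S : Finset (HeightOneSpectrum (𝓞 T.F)), ∀ 𝔭 ∉ S, πF.b 𝔭 = 1) →
      notion.IsCusp ℚ π → IsBaseChangeOf π πF →
      HasCentralCharChi π

/-- **A6 = DICT**: a cuspidal eigensystem over `ℚ` (archimedean component of Artin type, part of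
the notion) with odd central character `χ₋₃` is a classical holomorphic form of weight one. -/
def DictC (notion : CuspidalityNotion ℂ) : Prop :=
  ∀ π : HeckeEigensystem ℚ ℂ, notion.IsCusp ℚ π → HasCentralCharChi π → ClassicalFor π

/-- **DEPL** (classical): depletion at finitely many primes turns an almost-everywhere wall
output into `LTB.WallOut`. -/
def DeplWC : Prop :=
  ∀ (ρ : Γℚ →* GL (Fin 2) (ZMod 3)) (Ψ : GL (Fin 2) (ZMod 3) →* GL (Fin 2) (ℤ√(-2))),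
    WallOutAE ρ Ψ → LTB.WallOut ρ Ψ

/-! ## The top -/

/-- an embedding `ℤ√(-2) → ℂ` exists -/
theorem exists_iota : Nonempty (ℤ√(-2) →+* ℂ) := by
  have h2 : ((Real.sqrt 2 : ℝ) : ℂ) * ((Real.sqrt 2 : ℝ) : ℂ) = 2 := by
    rw [← Complex.ofReal_mul, Real.mul_self_sqrt (by norm_num)]
    norm_num
  refine ⟨Zsqrtd.lift ⟨Complex.I * ((Real.sqrt 2 : ℝ) : ℂ), ?_⟩⟩
  have : Complex.I * ((Real.sqrt 2 : ℝ) : ℂ) * (Complex.I * ((Real.sqrt 2 : ℝ) : ℂ))
      = (Complex.I * Complex.I) * (((Real.sqrt 2 : ℝ) : ℂ) * ((Real.sqrt 2 : ℝ) : ℂ)) := by ring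
  rw [this, Complex.I_mul_I, h2]
  norm_num

/-- **WALL-TOP**: `LTB.WallC` from the leaves, for ANY notion. -/
theorem wall_of_leaves (notion : CuspidalityNotion ℂ)
    (hT : TowerC) (hSeed : SeedC notion) (h3 : Desc3C notion) (h2 : Desc2C notion)
    (hSplit : SplitC) (hPar : ParC notion) (hDict : DictC notion) (hDepl : DeplWC) :
    LTB.WallC := by
  intro ρ Ψ hyp
  obtain ⟨T⟩ := hT ρ Ψ hyp
  obtain ⟨ι⟩ := exists_iota
  obtain ⟨Φ, hΦ, hseed⟩ := hSeed ρ Ψ hyp ι T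
  obtain ⟨πF, hπF, hbc1, hinv, hb1⟩ := h3 ρ Ψ hyp ι T Φ hΦ hseed
  obtain ⟨π, hπ, hbc2⟩ := h2 ρ Ψ hyp T πF hπF hinv
  have hchi := hPar ρ Ψ hyp ι T Φ πF π hΦ hseed hπF hbc1 hb1 hπ hbc2
  obtain ⟨S₁, hmatch⟩ := hSplit ρ Ψ hyp ι T Φ πF π hseed hbc1 hbc2
  obtain ⟨N, hN, ε, f, hf1, hrel, S₂, hf⟩ := hDict π hπ hchi
  apply hDepl ρ Ψ
  refine ⟨N, hN, ε, f, ι, S₁ ∪ S₂, hf1, hrel, ?_⟩
  intro p hp hpS A hA σ hσ hdet h4
  rw [Finset.mem_union, not_or] at hpS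
  rw [hf ⟨p, hp⟩ hpS.2]
  exact hmatch ⟨p, hp⟩ hpS.1 A hA σ hσ hdet h4

end Fermat.Agent.LT.H670

end
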